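/-
helper38 (P-FF / FF-F1, row 670): Boston-Lenstra-Ribet in rank two, abstract core.

`A`, `B` algebras over a commutative ring `T` (`2` a unit), `tr : A → T` linear.  For a
subalgebra `S ≤ A × B` on which the polarised Cayley-Hamilton expression
`β((a,f),(a',f')) = f f' + f' f - tr(a) f' - tr(a') f + (tr a tr a' - tr(a a'))`
vanishes, and which contains lifts of two "matrix units" `u`, `w`
(`tr u = tr w = 0`, `tr (w u) = 1`, `u² = 0`), the projection `S → A` is injective.
Mathlib only.
-/
import Mathlib

set_option autoImplicit false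

namespace Fermat.Agent.H38.BLR

section Abstract

variable {T : Type*} [CommRing T] {A B : Type*} [Ring A] [Algebra T A] [Ring B] [Algebra T B]
variable (tr : A →ₗ[T] T)

/-- The polarised Cayley-Hamilton expression. -/
def beta (x y : A × B) : B :=
  x.2 * y.2 + y.2 * x.2 - tr x.1 • y.2 - tr y.1 • x.2
    + (tr x.1 * tr y.1 - tr (x.1 * y.1)) • (1 : B)

theorem beta_zero_left (y : A × B) : beta tr 0 y = 0 := by
  simp [beta]

theorem beta_zero_right (x : A × B) : beta tr x 0 = 0 := by
  simp [beta]

theorem beta_add_left (x x' y : A × B) : beta tr (x + x') y = beta tr x y + beta tr x' y := by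
  simp only [beta, Prod.fst_add, Prod.snd_add, add_mul, mul_add, map_add, add_smul, smul_add,
    sub_smul]
  abel

theorem beta_add_right (x y y' : A × B) : beta tr x (y + y') = beta tr x y + beta tr x y' := by
  simp only [beta, Prod.fst_add, Prod.snd_add, add_mul, mul_add, map_add, add_smul, smul_add,
    sub_smul]
  abel

theorem beta_smul_left (c : T) (x y : A × B) : beta tr (c • x) y = c • beta tr x y := by
  simp only [beta, Prod.smul_fst, Prod.smul_snd, smul_mul_assoc, mul_smul_comm, map_smul,
    smul_eq_mul, smul_add, smul_sub, smul_smul, mul_sub, mul_assoc]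
  congr 3
  rw [mul_comm]

theorem beta_smul_right (c : T) (x y : A × B) : beta tr x (c • y) = c • beta tr x y := by
  simp only [beta, Prod.smul_fst, Prod.smul_snd, smul_mul_assoc, mul_smul_comm, map_smul,
    smul_eq_mul, smul_add, smul_sub, smul_smul, mul_sub]
  congr 2
  · congr 2
    rw [mul_comm]
  · congr 1
    ring

/-- `β` vanishes on the span of a set on which it vanishes. -/
theorem beta_eq_zero_of_mem_span {s : Set (A × B)}
    (h : ∀ x ∈ s, ∀ y ∈ s, beta tr x y = 0) {x y : A × B}
    (hx : x ∈ Submodule.span T s) (hy : y ∈ Submodule.span T s) : beta tr x y = 0 := by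
  induction hx, hy using Submodule.span_induction₂ with
  | mem_mem x y hx hy => exact h x hx y hy
  | zero_left y _ => exact beta_zero_left tr y
  | zero_right x _ => exact beta_zero_right tr x
  | add_left x y z _ _ _ h1 h2 => rw [beta_add_left, h1, h2, add_zero]
  | add_right x y z _ _ _ h1 h2 => rw [beta_add_right, h1, h2, add_zero]
  | smul_left c x y _ _ h1 => rw [beta_smul_left, h1, smul_zero]
  | smul_right c x y _ _ h1 => rw [beta_smul_right, h1, smul_zero]

variable {tr}

/-- The basic relation: `n f + f n = tr(a) n` for `(0, n), (a, f) ∈ S`. -/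
theorem anticomm_of_mem {S : Subalgebra T (A × B)}
    (hβ : ∀ x ∈ S, ∀ y ∈ S, beta tr x y = 0) {n : B} (hn : ((0 : A), n) ∈ S)
    {a : A} {f : B} (haf : (a, f) ∈ S) : n * f + f * n = tr a • n := by
  have h := hβ _ hn _ haf
  simp only [beta, map_zero, zero_smul, zero_mul, sub_zero, sub_self] at h
  rw [add_zero, sub_eq_zero] at h
  exact h

/-- **Injectivity of the first projection.** -/
theorem snd_eq_zero_of_mem {S : Subalgebra T (A × B)}
    (hβ : ∀ x ∈ S, ∀ y ∈ S, beta tr x y = 0) (h2 : IsUnit (2 : T))
    {u w : A} {e1 e2 : B} (hu : (u, e1) ∈ S) (hw : (w, e2) ∈ S)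
    (htu : tr u = 0) (htw : tr w = 0) (htwu : tr (w * u) = 1) (huu : u * u = 0)
    {n : B} (hn : ((0 : A), n) ∈ S) : n = 0 := by
  have two_cancel : ∀ x : B, x + x = 0 → x = 0 := by
    intro x hx
    rw [← two_smul T x] at hx
    exact (h2.smul_eq_zero).mp hx
  -- general facts for every `m` with `(0, m) ∈ S`
  have gen : ∀ m : B, ((0 : A), m) ∈ S →
      (e2 * e1 * m + e2 * e1 * m = m) ∧ e1 * e1 * m = 0 := by
    intro m hm
    have h1 : m * e1 + e1 * m = 0 := by
      rw [anticomm_of_mem hβ hm hu, htu, zero_smul]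
    have h2' : m * e2 + e2 * m = 0 := by
      rw [anticomm_of_mem hβ hm hw, htw, zero_smul]
    have hwu : (w * u, e2 * e1) ∈ S := by
      have := S.mul_mem hw hu
      simpa using this
    have h3 : m * (e2 * e1) + e2 * e1 * m = m := by
      rw [anticomm_of_mem hβ hm hwu, htwu, one_smul]
    have huu' : ((0 : A), e1 * e1) ∈ S := by
      have := S.mul_mem hu hu
      simpa [huu] using this
    have h4 : m * (e1 * e1) + e1 * e1 * m = 0 := by
      rw [anticomm_of_mem hβ hm huu', map_zero, zero_smul]
    have c1 : m * e1 = -(e1 * m) := eq_neg_of_add_eq_zero_left h1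
    have c2 : m * e2 = -(e2 * m) := eq_neg_of_add_eq_zero_left h2'
    have c3 : m * (e2 * e1) = e2 * e1 * m := by
      rw [← mul_assoc, c2, neg_mul, mul_assoc, c1, mul_neg, neg_neg, mul_assoc]
    have c4 : m * (e1 * e1) = e1 * e1 * m := by
      rw [← mul_assoc, c1, neg_mul, mul_assoc, c1, mul_neg, neg_neg, mul_assoc]
    refine ⟨?_, ?_⟩
    · rw [c3] at h3
      exact h3
    · rw [c4] at h4
      exact two_cancel _ h4
  have hn' : ((0 : A), e1 * n) ∈ S := by
    have := S.mul_mem hu hn
    simpa using this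
  obtain ⟨g1, g2⟩ := gen n hn
  obtain ⟨g3, -⟩ := gen (e1 * n) hn'
  have h5 : e1 * n = 0 := by
    rw [← g3]
    have : e2 * e1 * (e1 * n) = e2 * (e1 * e1 * n) := by
      simp only [mul_assoc]
    rw [this, g2, mul_zero, add_zero]
  rw [← g1, mul_assoc, h5, mul_zero, add_zero]

end Abstract

end Fermat.Agent.H38.BLR
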