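/-
helper38 (P-FF / FF-F1, row 670): Boston-Lenstra-Ribet in rank two.

`ρ : G → End_T V` (`V` free of rank two, image spanning `End_T V`), `τ : G → End_T X` satisfying
the Cayley-Hamilton identity of `ρ`, `2` a unit.  Then there is a `T`-algebra homomorphism
`θ : End_T V → End_T X` with `θ (ρ g) = τ g` (`blrHom`), and `V / Ann_T(X) V` embeds
`G`-equivariantly into `X → X` (`blrEmbedding : H14.FFF.BLREmbeddingStatement`).
-/
import Fermat.Agent.H38.BLR.Core
import Fermat.Agent.H14.FFF.Interfaces

set_option autoImplicit false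

noncomputable section

namespace Fermat.Agent.H38.BLR

section Concrete

variable {G : Type*} [Group G] {T : Type*} [CommRing T] {V : Type*} [AddCommGroup V]
  [Module T V] {X : Type*} [AddCommGroup X] [Module T X]
variable (ρ : G →* Module.End T V) (τ : G →* Module.End T X)

/-- The Cayley-Hamilton hypothesis. -/
def CH : Prop :=
  ∀ g : G, τ g * τ g - LinearMap.trace T V (ρ g) • τ g + LinearMap.det (ρ g) • 1 = 0

variable {ρ τ}

theorem tr_sub_eq (hCH : CH ρ τ) (g : G) :
    LinearMap.trace T V (ρ g) • (1 : Module.End T X) - τ g = LinearMap.det (ρ g) • τ g⁻¹ := by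
  have hinv : τ g * τ g⁻¹ = 1 := by rw [← map_mul, mul_inv_cancel, map_one]
  have h := congrArg (· * τ g⁻¹) (hCH g)
  simp only [add_mul, sub_mul, smul_mul_assoc, mul_assoc, hinv, mul_one, one_mul,
    zero_mul] at h
  have h' : LinearMap.det (ρ g) • τ g⁻¹
      - (LinearMap.trace T V (ρ g) • (1 : Module.End T X) - τ g)
      = τ g - LinearMap.trace T V (ρ g) • (1 : Module.End T X)
        + LinearMap.det (ρ g) • τ g⁻¹ := by
    abel
  rw [eq_comm, ← sub_eq_zero, h', h]

/-- Step 1: the polarised Cayley-Hamilton identity on group elements. -/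
theorem beta_gen (hCH : CH ρ τ) (g h : G) :
    beta (LinearMap.trace T V) (ρ g, τ g) (ρ h, τ h) = 0 := by
  have e1 := tr_sub_eq hCH g
  have e2 := tr_sub_eq hCH h
  have e3 := tr_sub_eq hCH (h * g)
  have key : beta (LinearMap.trace T V) (ρ g, τ g) (ρ h, τ h)
      = (LinearMap.trace T V (ρ g) • (1 : Module.End T X) - τ g)
          * (LinearMap.trace T V (ρ h) • (1 : Module.End T X) - τ h)
        - (LinearMap.trace T V (ρ (h * g)) • (1 : Module.End T X) - τ (h * g)) := by
    simp only [beta, map_mul, sub_mul, mul_sub, smul_mul_assoc, mul_smul_comm, one_mul, mul_one,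
      sub_smul, smul_sub, smul_smul]
    rw [LinearMap.trace_mul_comm T (ρ h) (ρ g)]
    module
  rw [key, e1, e2, e3]
  simp only [mul_inv_rev, map_mul, smul_mul_assoc, mul_smul_comm, smul_smul]
  rw [mul_comm (LinearMap.det (ρ h)), sub_self]

variable (ρ τ)

/-- The subalgebra of `End V × End X` generated by the pairs `(ρ g, τ g)`. -/
def graphAlg : Subalgebra T (Module.End T V × Module.End T X) :=
  Algebra.adjoin T (Set.range (ρ.prod τ))

theorem graphAlg_toSubmodule :
    Subalgebra.toSubmodule (graphAlg ρ τ) = Submodule.span T (Set.range (ρ.prod τ)) := by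
  rw [graphAlg, Algebra.adjoin_eq_span]
  congr 1
  rw [← MonoidHom.coe_mrange, Submonoid.closure_eq]

theorem pair_mem_graphAlg (g : G) : (ρ g, τ g) ∈ graphAlg ρ τ :=
  Algebra.subset_adjoin ⟨g, rfl⟩

variable {ρ τ}

theorem beta_graphAlg (hCH : CH ρ τ) :
    ∀ x ∈ graphAlg ρ τ, ∀ y ∈ graphAlg ρ τ, beta (LinearMap.trace T V) x y = 0 := by
  intro x hx y hy
  have hx' : x ∈ Submodule.span T (Set.range (ρ.prod τ)) := by
    rw [← graphAlg_toSubmodule]
    exact hx
  have hy' : y ∈ Submodule.span T (Set.range (ρ.prod τ)) := by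
    rw [← graphAlg_toSubmodule]
    exact hy
  refine beta_eq_zero_of_mem_span _ ?_ hx' hy'
  rintro _ ⟨g, rfl⟩ _ ⟨h, rfl⟩
  exact beta_gen hCH g h

theorem exists_mem_graphAlg (hspan : Submodule.span T (Set.range ρ) = ⊤)
    (a : Module.End T V) : ∃ f : Module.End T X, (a, f) ∈ graphAlg ρ τ := by
  have ha : a ∈ Submodule.span T (Set.range ρ) := by
    rw [hspan]
    exact Submodule.mem_top
  induction ha using Submodule.span_induction with
  | mem a ha =>
    obtain ⟨g, rfl⟩ := ha
    exact ⟨τ g, pair_mem_graphAlg ρ τ g⟩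
  | zero => exact ⟨0, (graphAlg ρ τ).zero_mem⟩
  | add a a' _ _ h h' =>
    obtain ⟨f, hf⟩ := h
    obtain ⟨f', hf'⟩ := h'
    exact ⟨f + f', (graphAlg ρ τ).add_mem hf hf'⟩
  | smul c a _ h =>
    obtain ⟨f, hf⟩ := h
    exact ⟨c • f, (graphAlg ρ τ).smul_mem hf c⟩

variable (b : Module.Basis (Fin 2) T V)

theorem trace_toLin (M : Matrix (Fin 2) (Fin 2) T) :
    LinearMap.trace T V (Matrix.toLin b b M) = M.trace := by
  rw [LinearMap.trace_eq_matrix_trace T b, LinearMap.toMatrix_toLin]

include b in
/-- Step 3: the first projection `graphAlg → End V` is injective. -/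
theorem snd_eq_zero (hspan : Submodule.span T (Set.range ρ) = ⊤) (h2 : IsUnit (2 : T))
    (hCH : CH ρ τ) {n : Module.End T X} (hn : ((0 : Module.End T V), n) ∈ graphAlg ρ τ) :
    n = 0 := by
  set u : Module.End T V := Matrix.toLin b b (Matrix.single 0 1 1) with hu
  set w : Module.End T V := Matrix.toLin b b (Matrix.single 1 0 1) with hw
  obtain ⟨e1, he1⟩ := exists_mem_graphAlg (τ := τ) hspan u
  obtain ⟨e2, he2⟩ := exists_mem_graphAlg (τ := τ) hspan w
  have htu : LinearMap.trace T V u = 0 := by
    rw [hu, trace_toLin, Matrix.trace_single_eq_of_ne]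
    decide
  have htw : LinearMap.trace T V w = 0 := by
    rw [hw, trace_toLin, Matrix.trace_single_eq_of_ne]
    decide
  have htwu : LinearMap.trace T V (w * u) = 1 := by
    rw [hu, hw, Module.End.mul_eq_comp, ← Matrix.toLin_mul, trace_toLin,
      Matrix.single_mul_single_same, mul_one, Matrix.trace_single_eq_same]
  have huu : u * u = 0 := by
    rw [hu, Module.End.mul_eq_comp, ← Matrix.toLin_mul, Matrix.single_mul_single_of_ne,
      map_zero]
    decide
  exact snd_eq_zero_of_mem (beta_graphAlg hCH) h2 he1 he2 htu htw htwu huu hn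

include b in
theorem graph_unique (hspan : Submodule.span T (Set.range ρ) = ⊤) (h2 : IsUnit (2 : T))
    (hCH : CH ρ τ) {a : Module.End T V} {f f' : Module.End T X}
    (hf : (a, f) ∈ graphAlg ρ τ) (hf' : (a, f') ∈ graphAlg ρ τ) : f = f' := by
  have h := (graphAlg ρ τ).sub_mem hf hf'
  rw [Prod.mk_sub_mk, sub_self] at h
  exact sub_eq_zero.mp (snd_eq_zero b hspan h2 hCH h)

/-- Step 4: the map `θ : End V → End X` whose graph is `graphAlg`. -/
def theta (hspan : Submodule.span T (Set.range ρ) = ⊤) (τ : G →* Module.End T X)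
    (a : Module.End T V) : Module.End T X :=
  (exists_mem_graphAlg (τ := τ) hspan a).choose

theorem theta_mem (hspan : Submodule.span T (Set.range ρ) = ⊤) (a : Module.End T V) :
    (a, theta hspan τ a) ∈ graphAlg ρ τ :=
  (exists_mem_graphAlg (τ := τ) hspan a).choose_spec

include b in
theorem theta_eq (hspan : Submodule.span T (Set.range ρ) = ⊤) (h2 : IsUnit (2 : T))
    (hCH : CH ρ τ) {a : Module.End T V} {f : Module.End T X} (hf : (a, f) ∈ graphAlg ρ τ) :
    theta hspan τ a = f :=
  graph_unique b hspan h2 hCH (theta_mem hspan a) hf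

/-- **Boston-Lenstra-Ribet**: the algebra homomorphism `End V → End X` extending `ρ g ↦ τ g`. -/
def blrHom (hspan : Submodule.span T (Set.range ρ) = ⊤) (h2 : IsUnit (2 : T))
    (hCH : CH ρ τ) : Module.End T V →ₐ[T] Module.End T X :=
  AlgHom.ofLinearMap
    { toFun := theta hspan τ
      map_add' := fun a a' => theta_eq b hspan h2 hCH
        ((graphAlg ρ τ).add_mem (theta_mem hspan a) (theta_mem hspan a'))
      map_smul' := fun c a => theta_eq b hspan h2 hCH
        ((graphAlg ρ τ).smul_mem (theta_mem hspan a) c) }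
    (theta_eq b hspan h2 hCH (graphAlg ρ τ).one_mem)
    (fun a a' => theta_eq b hspan h2 hCH
      ((graphAlg ρ τ).mul_mem (theta_mem hspan a) (theta_mem hspan a')))

theorem blrHom_apply (hspan : Submodule.span T (Set.range ρ) = ⊤) (h2 : IsUnit (2 : T))
    (hCH : CH ρ τ) (g : G) : blrHom b hspan h2 hCH (ρ g) = τ g :=
  theta_eq b hspan h2 hCH (pair_mem_graphAlg ρ τ g)

/-- The rank one operator `u ↦ (b.coord k u) • v`. -/
def rankOne (k : Fin 2) : V →ₗ[T] Module.End T V := LinearMap.smulRightₗ (b.coord k)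

theorem rankOne_apply (k : Fin 2) (v u : V) : rankOne b k v u = b.repr u k • v := rfl

theorem mul_rankOne (f : Module.End T V) (k : Fin 2) (v : V) :
    f * rankOne b k v = rankOne b k (f v) := by
  ext u
  rw [Module.End.mul_apply, rankOne_apply, rankOne_apply, map_smul]

/-- The scalar `v_i` is a sum of products involving the rank one operator of `v`. -/
theorem smul_one_eq_sum (v : V) (i : Fin 2) :
    b.repr v i • (1 : Module.End T V)
      = ∑ j : Fin 2, rankOne b i (b j) * rankOne b 0 v * rankOne b j (b 0) := by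
  ext u
  rw [LinearMap.smul_apply, Module.End.one_apply, LinearMap.sum_apply]
  have h : ∀ j : Fin 2, (rankOne b i (b j) * rankOne b 0 v * rankOne b j (b 0)) u
      = (b.repr v i * b.repr u j) • b j := by
    intro j
    rw [Module.End.mul_apply, Module.End.mul_apply, rankOne_apply, rankOne_apply, rankOne_apply,
      map_smul, map_smul, Module.Basis.repr_self, Finsupp.smul_apply, Finsupp.smul_apply,
      Finsupp.single_eq_same, smul_eq_mul, smul_eq_mul, mul_one, mul_comm]
  simp only [h]
  conv_lhs => rw [← b.sum_repr u]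
  rw [Finset.smul_sum]
  refine Finset.sum_congr rfl fun j _ => ?_
  rw [smul_smul]

end Concrete

/-- **FF-F1 (BLR embedding)**. -/
theorem blrEmbedding : Fermat.Agent.H14.FFF.BLREmbeddingStatement := by
  intro G _ T _ V _ _ b ρ X _ _ τ hspan h2 hCH0
  have hCH : CH ρ τ := hCH0
  clear hCH0
  set θ := blrHom b hspan h2 hCH with hθ
  refine ⟨(LinearMap.ltoFun T X X T).comp (θ.toLinearMap.comp (rankOne b 0)), ?_, ?_⟩
  · intro g v x
    change θ (rankOne b 0 (ρ g v)) x = τ g (θ (rankOne b 0 v) x)
    rw [← mul_rankOne, map_mul, hθ, blrHom_apply, Module.End.mul_apply]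
  · intro v hv
    have hv0 : θ (rankOne b 0 v) = 0 := by
      ext x
      exact congrFun hv x
    have hann : ∀ i : Fin 2, b.repr v i ∈ Module.annihilator T X := by
      intro i
      rw [Module.mem_annihilator]
      intro x
      have h1 := congrArg θ (smul_one_eq_sum b v i)
      rw [map_smul, map_one, map_sum] at h1
      simp only [map_mul, hv0, mul_zero, zero_mul, Finset.sum_const_zero] at h1
      have h3 := congrArg (fun f : Module.End T X => f x) h1
      simpa using h3
    rw [← b.sum_repr v]
    exact Submodule.sum_mem _ fun i _ => Submodule.smul_mem_smul (hann i) Submodule.mem_top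

end Fermat.Agent.H38.BLR
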